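/-
TEAM CFT -> S55: top wiring (helper55).  `Stmt_S55` from the three arithmetic inputs
(TW) cyclotomic tower, (GR) weak global reciprocity, (GN) global numerics.
-/
import Fermat.Agent.CFT.Top.Final2
import Fermat.Agent.CFT.Pos.Final
import Fermat.Agent.CFT.Num.Assembly
import Fermat.Agent.CFT.Num.ShapiroM
import Fermat.Agent.CFT.Num.Pdim
import Fermat.Agent.CFT.Num.Mackey
import Fermat.Agent.CFT.Num.Stab
import Fermat.Agent.CFT.Num.H2Finite
import Fermat.Agent.CFT.Num.QLN
import Fermat.Agent.CFT.Num.QLN3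
import Fermat.Agent.CFT.Num.FieldOf
import Fermat.Agent.CFT.Num.DC
import Fermat.Agent.CFT.Num.Sha2K
import Fermat.Agent.CFT.Num.ShaLocal
import Fermat.Agent.CFT.Num.ConjTriv
import Fermat.Agent.CFT.Local.Final
import Fermat.Agent.CFT.GN.DictAB
import Fermat.Agent.CFT.GN.DictD
import Fermat.Agent.CFT.GN.K3f

set_option autoImplicit false

namespace Fermat.Agent.CFT.Wire

open Fermat.Agent.CFT

/-- the arithmetic inputs for `qDatum`, from (TW), (GR), (GN). -/
theorem arith2_of_rest (hTW : Num.Stmt_TWorb) (hGR : Num.Stmt_qGR) (hGN : GN.Stmt_GN) :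
    Top.Stmt_arith2 :=
  Num.arithAssembly Num.shapiro_uncond
    (Num.pdim (Num.mackey Num.stabOpen) Num.stabOpen Num.orbitSum)
    Num.h2Finite
    (Num.qLN Local.final_LN Num.shapiro_uncond)
    (Num.qLN3 Local.all_towerKummer Local.all_padicTower)
    Num.fieldOf
    (Num.dc GN.dictA GN.dictD)
    (Num.sha2K (Num.shaLocal Num.conjTriv) Num.stabOpen GN.dictD)
    hTW hGR hGN GN.k3f

/-- **S55 from (TW), (GR), (GN).** -/
theorem s55_of_rest (hTW : Num.Stmt_TWorb) (hGR : Num.Stmt_qGR) (hGN : GN.Stmt_GN) :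
    Top.Stmt_S55 :=
  Top.s55_of_PT2_arith2 Pos.stmt_PT2 (arith2_of_rest hTW hGR hGN)

end Fermat.Agent.CFT.Wire
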