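/-
TEAM CFT -> S55: top wiring (helper55), second layer.  `Stmt_S55` from the Hasse principle.
-/
import Fermat.Agent.CFT.Wire.Rest
import Fermat.Agent.CFT.TW.Final
import Fermat.Agent.CFT.GR.All
import Fermat.Agent.CFT.GR.Interface3
import Fermat.Agent.CFT.GR.LocStd
import Fermat.Agent.CFT.GR.LocConj
import Fermat.Agent.CFT.HPG.Final
import Fermat.Agent.CFT.HPG.Final1

set_option autoImplicit false

namespace Fermat.Agent.CFT.Wire

open Fermat.Agent.CFT

/-- **S55 from the finite level Hasse principle** and the glue to (GR). -/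
theorem s55_of_hpfin (h : HPG.Stmt_HPfin) (hg : GR.Stmt_HPNglue) : Top.Stmt_S55 :=
  s55_of_rest TW.twOrb
    (GR.all_grw (hg (HPG.final_hpraw2 h) GR.locStd GR.locConj GN.dictA GN.dictD))
    (HPG.final_gn h)

/-- **S55 from the Hasse principle for `p`-groups.** -/
theorem s55_of_hpp (h : HPG.Stmt_HPp) (hg : GR.Stmt_HPNglue) : Top.Stmt_S55 :=
  s55_of_hpfin (HPG.final_hpfin_of_hpp h) hg

end Fermat.Agent.CFT.Wire
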