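/-
TEAM CFT -> S55: top wiring (helper55), third layer.
-/
import Fermat.Agent.CFT.Wire.Rest2
import Fermat.Agent.CFT.HPG.HPp
import Fermat.Agent.CFT.HPG.LTcob
import Fermat.Agent.CFT.HPG.ExistsInfCyc
import Fermat.Agent.CFT.HNQ.LayerNorm
import Fermat.Agent.CFT.HNQ.ApproxNorm
import Fermat.Agent.CFT.HNQ.LiftEmb
import Fermat.Agent.CFT.HNQ.Sep
import Fermat.Agent.CFT.HNQ.WeakA
import Fermat.Agent.CFT.HNQ.TotCplx
import Fermat.Agent.CFT.HNQ.OpenFix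
import Fermat.Agent.CFT.HNT.Final

set_option autoImplicit false

namespace Fermat.Agent.CFT.Wire

open Fermat.Agent.CFT

theorem layerNorm_of (hN : HNQ.Stmt_NearDict) (hI : HNQ.Stmt_NearInv) (hG : HNQ.Stmt_GalDict) :
    HPG.Stmt_LayerNorm :=
  HNQ.layerNorm hN (HNQ.approxNorm HNQ.liftEmb HNQ.sep (HNQ.weakA hN) hI) hG HNQ.totCplx
    HNQ.openFix HNQ.grpSplit HNT.all_hntU

theorem hpp_of (h : HPG.Stmt_LayerNorm) : HPG.Stmt_HPp :=
  HPG.hpp HPG.clsApi HPG.ltcob HPG.existsInfCyc (HPG.final_layer h)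

/-- **S55** from the last three packages. -/
theorem s55_of_three (hN : HNQ.Stmt_NearDict) (hI : HNQ.Stmt_NearInv) (hG : HNQ.Stmt_GalDict)
    (hg : GR.Stmt_HPNglue) : Top.Stmt_S55 :=
  s55_of_hpp (hpp_of (layerNorm_of hN hI hG)) hg

end Fermat.Agent.CFT.Wire
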