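/-
TEAM CFT -> S55: top wiring (helper55), last layer: `Stmt_S55`, unconditionally.
-/
import Fermat.Agent.CFT.Wire.Rest3
import Fermat.Agent.CFT.HNQ.NearDict
import Fermat.Agent.CFT.HNQ.GalDict
import Fermat.Agent.CFT.GR.HPNglue

set_option autoImplicit false

namespace Fermat.Agent.CFT.Wire

open Fermat.Agent.CFT

/-- **Poitou-Tate duality `Ш¹(M^*) × Ш²(M) → 𝔽_p`, unconditionally.** -/
theorem s55 : Top.Stmt_S55 :=
  s55_of_three HNQ.nearDict HNQ.nearInv HNQ.galDict GR.hpnGlue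

end Fermat.Agent.CFT.Wire
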